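import Fermat.Agent.TW.Local.Tame
import Fermat.Agent.TW.Local.Levels
import Fermat.Agent.Eisen.ChiAction
import Fermat.Agent.Frobenius.Lifting
import Fermat.Agent.Frobenius.Places
import Mathlib.FieldTheory.Galois.Profinite

/-!
# Frobenius and a tame generator in an adic matrix representation

At `q ≠ p` where the residual representation is unramified, one element of inertia generates the
image of inertia at every finite level, Frobenius raises it to the power `q`, and a cyclotomic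
determinant takes the values `q` and `1`.
-/

set_option autoImplicit false
set_option linter.unusedSectionVars false

noncomputable section

open IsLocalRing FLTAgent.Deformation FLTAgent.TW FLTAgent.TW.Local

namespace FLTAgent.RT.Gen

local notation "Q̄" => AlgebraicClosure ℚ

variable {R : Type} [CommRing R] [IsLocalRing R]

/-- The representation modulo a power of the maximal ideal. -/
abbrev modPow (M : Gal →* Mat R) (n : ℕ) : Gal →* Mat (R ⧸ maximalIdeal R ^ n) :=
  mapRep (Ideal.Quotient.mk (maximalIdeal R ^ n)) M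

/-- A matrix congruent to one modulo the maximal ideal has small `p`-power powers. -/
theorem pow_prime_pow_sub_one_mem {p : ℕ} (hp : (p : R) ∈ maximalIdeal R) {X : Mat R}
    (hX : ∀ i j, (X - 1) i j ∈ maximalIdeal R) (n : ℕ) :
    ∀ i j, (X ^ p ^ n - 1) i j ∈ maximalIdeal R ^ (n + 1) := by
  induction n with
  | zero => simpa using hX
  | succ n ih =>
    intro i j
    set Y := X ^ p ^ n with hY
    have hY1 : (Ideal.Quotient.mk (maximalIdeal R)).mapMatrix Y = 1 := by
      have h1 : (Ideal.Quotient.mk (maximalIdeal R)).mapMatrix (Y - 1) = 0 := by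
        ext a b
        exact Ideal.Quotient.eq_zero_iff_mem.mpr (Ideal.pow_le_self n.succ_ne_zero (ih a b))
      rwa [map_sub, map_one, sub_eq_zero] at h1
    have hS : ∀ a b, (∑ l ∈ Finset.range p, Y ^ l) a b ∈ maximalIdeal R := by
      intro a b
      rw [← Ideal.Quotient.eq_zero_iff_mem]
      have : (Ideal.Quotient.mk (maximalIdeal R)).mapMatrix (∑ l ∈ Finset.range p, Y ^ l) = 0 := by
        rw [map_sum]
        simp only [map_pow, hY1, one_pow, Finset.sum_const, Finset.card_range]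
        ext a b
        rw [Matrix.smul_apply, nsmul_eq_mul, ← map_natCast (Ideal.Quotient.mk (maximalIdeal R)),
          Ideal.Quotient.eq_zero_iff_mem.mpr hp, zero_mul, Matrix.zero_apply]
      exact congrFun (congrFun this a) b
    rw [pow_succ p n, pow_mul, ← hY, ← geom_sum_mul, Matrix.mul_apply, pow_succ' (maximalIdeal R)]
    exact Ideal.sum_mem _ fun l _ => Ideal.mul_mem_mul (hS i l) (ih l j)

variable {p : ℕ} [Fact p.Prime] {q : ℕ} {A : ValuationSubring Q̄}

/-- Wild inertia is trivial at every finite level. -/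
theorem modPow_eq_one_of_isWild (hpR : (p : R) ∈ maximalIdeal R) (hq : q.Prime) (hqp : q ≠ p)
    (hA : A.LiesOverPrime q) {M : Gal →* Mat R}
    (hres : ∀ σ ∈ A.inertiaSubgroupIn ℚ, ∀ i j, (M σ - 1) i j ∈ maximalIdeal R)
    {L : IntermediateField ℚ Q̄} [FiniteDimensional ℚ L] [Normal ℚ L] {n : ℕ}
    (hL : ∀ σ : Gal, (∀ x ∈ L, σ x = x) → modPow M n σ = 1) (T : TameLevel A L) {w : Gal}
    (hw : T.IsWild w) : modPow M n w = 1 := by
  obtain ⟨-, a, ha⟩ := TameLevel.IsWild.eq_one (T := T) (rb := (1 : Gal →* Mat ℚ)) hq hA hw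
    (fun _ _ => rfl) (m := 1) (fun h => hq.ne_one (Nat.dvd_one.mp h)) (by simp)
  have h1 : modPow M n w ^ q ^ a = 1 := by rw [← map_pow, hL _ ha]
  have h2 : modPow M n w ^ p ^ n = 1 := by
    rw [mapRep_apply, ← RingHom.mapMatrix_apply, ← map_pow, ← sub_eq_zero,
      ← map_one (Ideal.Quotient.mk (maximalIdeal R ^ n)).mapMatrix, ← map_sub]
    ext i j
    exact Ideal.Quotient.eq_zero_iff_mem.mpr (Ideal.pow_le_pow_right n.le_succ
      (pow_prime_pow_sub_one_mem hpR (hres w hw.1) n i j))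
  have hcop : Nat.Coprime (q ^ a) (p ^ n) :=
    Nat.Coprime.pow _ _ ((Nat.coprime_primes hq Fact.out).mpr hqp)
  have := pow_gcd_eq_one.mpr ⟨h1, h2⟩
  rwa [hcop.gcd_eq_one, pow_one] at this

/-- Inertia is closed. -/
theorem isClosed_inertia (A : ValuationSubring Q̄) :
    IsClosed (A.inertiaSubgroupIn ℚ : Set Gal) := by
  rw [← isOpen_compl_iff, isOpen_iff_forall_mem_open]
  intro σ hσ
  rw [Set.mem_compl_iff, SetLike.mem_coe, Frobenius.mem_inertiaSubgroupIn_iff_centre] at hσ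
  push Not at hσ
  obtain ⟨x, hx⟩ := hσ
  let E : IntermediateField ℚ Q̄ := IntermediateField.adjoin ℚ {(x : Q̄)}
  have : FiniteDimensional ℚ E := IntermediateField.adjoin.finiteDimensional
    ((AlgebraicClosure.isAlgebraic ℚ).isAlgebraic _).isIntegral
  refine ⟨(fun τ => σ⁻¹ * τ) ⁻¹' (E.fixingSubgroup : Set Gal), fun τ hτ => ?_,
    E.fixingSubgroup_isOpen.preimage (continuous_const_mul _), by simp⟩
  have h : σ⁻¹ (τ (x : Q̄)) = (x : Q̄) := (IntermediateField.mem_fixingSubgroup_iff _ _).mp hτ _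
    (IntermediateField.mem_adjoin_simple_self ℚ _)
  have hτx : τ • x = σ • x := by
    refine Subtype.ext ?_
    show τ (x : Q̄) = σ (x : Q̄)
    conv_rhs => rw [← h]
    exact (σ.apply_symm_apply _).symm
  rw [Set.mem_compl_iff, SetLike.mem_coe, Frobenius.mem_inertiaSubgroupIn_iff_centre]
  exact fun h' => hx (hτx ▸ h' x)

/-- A topological generator of the image of inertia, raised to the power `q` by Frobenius. -/
theorem exists_inertia_generator [IsNoetherianRing R] [IsAdicComplete (maximalIdeal R) R]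
    (hpR : (p : R) ∈ maximalIdeal R) (hq : q.Prime) (hqp : q ≠ p) (hA : A.LiesOverPrime q)
    {M : Gal →* Mat R} (hM : MatCont M)
    (hres : ∀ σ ∈ A.inertiaSubgroupIn ℚ, ∀ i j, (M σ - 1) i j ∈ maximalIdeal R) :
    ∃ τ ∈ A.inertiaSubgroupIn ℚ,
      (∀ n, ∀ σ ∈ A.inertiaSubgroupIn ℚ, ∃ j : ℕ, modPow M n σ = modPow M n τ ^ j) ∧
      ∀ φ : Gal, A.IsFrobeniusAt φ q → M φ * M τ = M τ ^ q * M φ := by
  have : Algebra.IsAlgebraic ℚ Q̄ := AlgebraicClosure.isAlgebraic ℚ
  have : IsAlgClosure ℚ Q̄ := ⟨inferInstance, inferInstance⟩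
  have : Normal ℚ Q̄ := IsAlgClosure.normal ℚ Q̄
  have : IsGalois ℚ Q̄ := ⟨⟩
  have hlev : ∀ n, ∃ L : IntermediateField ℚ Q̄, FiniteDimensional ℚ L ∧ Normal ℚ L ∧
      ∀ σ : Gal, (∀ x ∈ L, σ x = x) → modPow M n σ = 1 := by
    intro n
    obtain ⟨L₀, hL₀, h⟩ := hM n
    obtain ⟨L, h1, h2, h3⟩ := exists_normal_ge L₀
    refine ⟨L, h1, h2, fun σ hσ => ?_⟩
    rw [mapRep_apply, ← sub_eq_zero, ← RingHom.mapMatrix_apply,
      ← map_one (Ideal.Quotient.mk (maximalIdeal R ^ n)).mapMatrix, ← map_sub]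
    ext i j
    exact Ideal.Quotient.eq_zero_iff_mem.mpr (h σ (fun x hx => hσ x (h3 hx)) i j)
  choose L hLf hLn hL1 using hlev
  let C : ℕ → Set Gal := fun n => {τ | τ ∈ A.inertiaSubgroupIn ℚ ∧
    ∀ σ ∈ A.inertiaSubgroupIn ℚ, ∃ j : ℕ, modPow M n σ = modPow M n τ ^ j}
  have hclosed : ∀ n, IsClosed (C n) := by
    intro n
    refine (isClosed_inertia A).inter ?_
    rw [← isOpen_compl_iff, isOpen_iff_forall_mem_open]
    intro τ hτ
    have := hLf n
    refine ⟨(fun x => τ⁻¹ * x) ⁻¹' ((L n).fixingSubgroup : Set Gal), fun x hx hx' => hτ ?_,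
      (L n).fixingSubgroup_isOpen.preimage (continuous_const_mul _), by simp⟩
    have e : modPow M n x = modPow M n τ := by
      have h1 := hL1 n _ ((IntermediateField.mem_fixingSubgroup_iff _ _).mp hx)
      rw [show x = τ * (τ⁻¹ * x) by rw [mul_inv_cancel_left], map_mul, h1, mul_one]
    show ∀ σ ∈ A.inertiaSubgroupIn ℚ, ∃ j : ℕ, modPow M n σ = modPow M n τ ^ j
    rw [← e]
    exact hx'
  have hmono : ∀ n, C (n + 1) ⊆ C n := by
    rintro n τ ⟨hτI, hτ⟩
    refine ⟨hτI, fun σ hσ => ?_⟩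
    obtain ⟨j, hj⟩ := hτ σ hσ
    refine ⟨j, ?_⟩
    let π := Ideal.Quotient.factor (Ideal.pow_le_pow_right n.le_succ :
      maximalIdeal R ^ (n + 1) ≤ maximalIdeal R ^ n)
    have e : ∀ x, modPow M n x = π.mapMatrix (modPow M (n + 1) x) := fun x => by
      ext a b; simp [π, mapRep_apply]
    rw [e, e, hj, map_pow]
  have hne : ∀ n, (C n).Nonempty := by
    intro n
    have := hLf n
    have := hLn n
    obtain ⟨T⟩ := TameLevel.nonempty (L := L n) hq hA
    obtain ⟨τ, hτ, hgen⟩ := T.exists_generator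
    refine ⟨τ, hτ, fun σ hσ => ?_⟩
    obtain ⟨j, hj⟩ := hgen σ hσ
    refine ⟨j, ?_⟩
    have h1 := modPow_eq_one_of_isWild hpR hq hqp hA hres (hL1 n) T hj
    rw [← map_pow, show σ = τ ^ j * ((τ ^ j)⁻¹ * σ) by rw [mul_inv_cancel_left], map_mul, h1,
      mul_one]
  obtain ⟨τ, hτ⟩ := IsCompact.nonempty_iInter_of_sequence_nonempty_isCompact_isClosed C hmono hne
    ((hclosed 0).isCompact) hclosed
  rw [Set.mem_iInter] at hτ
  refine ⟨τ, (hτ 0).1, fun n => (hτ n).2, fun φ hφ => ?_⟩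
  ext i j
  rw [← sub_eq_zero]
  refine eq_zero_of_forall_mem_pow (I := maximalIdeal R) fun n => ?_
  have := hLf n
  have := hLn n
  obtain ⟨T⟩ := TameLevel.nonempty (L := L n) hq hA
  have h1 := modPow_eq_one_of_isWild hpR hq hqp hA hres (hL1 n) T
    (T.conj_frobenius hφ (hτ 0).1)
  have h2 : modPow M n (φ * τ) = modPow M n (τ ^ q * φ) := by
    have h3 : φ * τ = φ * τ * φ⁻¹ * (τ ^ q)⁻¹ * (τ ^ q * φ) := by group
    rw [h3, map_mul, h1, one_mul]
  rw [← map_pow, ← map_mul, ← map_mul]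
  exact Ideal.Quotient.eq.mp (congrFun (congrFun h2 i) j)

/-- Inertia fixes roots of unity of order prime to the residue characteristic. -/
theorem inertia_apply_root (hq : q.Prime) (hA : A.LiesOverPrime q) {φ : Gal}
    (hφ : A.IsFrobeniusAt φ q) {σ : Gal} (hσ : σ ∈ A.inertiaSubgroupIn ℚ) {m : ℕ} (hm0 : m ≠ 0)
    (hm : m.Coprime q) {ζ : Q̄} (hζ : ζ ^ m = 1) : σ ζ = ζ := by
  have h1 := Eisen.frobenius_apply_root hA hφ hm0 hm hζ
  have h2 := Eisen.frobenius_apply_root hA
    (Frobenius.isFrobeniusAt_mul_of_mem_inertiaSubgroupIn hq.pos hφ hσ) hm0 hm hζ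
  exact φ.injective (h2.trans h1.symm)

/-- A cyclotomic determinant at Frobenius and on inertia. -/
theorem det_frobenius_inertia [IsNoetherianRing R] [IsAdicComplete (maximalIdeal R) R]
    (hpR : (p : R) ∈ maximalIdeal R) (hq : q.Prime) (hqp : q ≠ p) (hA : A.LiesOverPrime q)
    {M : Gal →* Mat R}
    (hdet : ∀ (n : ℕ) (σ : Gal) (a : ℕ), (∀ μ : Q̄, μ ^ p ^ n = 1 → σ μ = μ ^ a) →
      (M σ).det - (a : R) ∈ Ideal.span {((p ^ n : ℕ) : R)})
    {φ : Gal} (hφ : A.IsFrobeniusAt φ q) :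
    (M φ).det = (q : R) ∧ ∀ σ ∈ A.inertiaSubgroupIn ℚ, (M σ).det = 1 := by
  have hp := (Fact.out : p.Prime)
  have key : ∀ (σ : Gal) (a : ℕ),
      (∀ (n : ℕ) (μ : Q̄), μ ^ p ^ n = 1 → σ μ = μ ^ a) → (M σ).det = (a : R) := by
    intro σ a h
    rw [← sub_eq_zero]
    refine eq_zero_of_forall_mem_pow (I := maximalIdeal R) fun n => ?_
    refine (Ideal.span_le.mpr ?_) (hdet n σ a (h n))
    rintro _ rfl
    rw [SetLike.mem_coe, Nat.cast_pow]
    exact Ideal.pow_mem_pow hpR n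
  have hm : ∀ n, (p ^ n).Coprime q := fun n =>
    Nat.Coprime.pow_left n ((Nat.coprime_primes hp hq).mpr hqp.symm)
  refine ⟨key φ q fun n μ hμ =>
    Eisen.frobenius_apply_root hA hφ (pow_ne_zero _ hp.ne_zero) (hm n) hμ, fun σ hσ => ?_⟩
  rw [key σ 1 fun n μ hμ => ?_, Nat.cast_one]
  rw [pow_one]
  exact inertia_apply_root hq hA hφ hσ (pow_ne_zero _ hp.ne_zero) (hm n) hμ

end FLTAgent.RT.Gen
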