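import Fermat.Agent.RT.Gen.Inertia
import Fermat.Agent.RT.LocalBasic
import Fermat.Agent.Deformation.Residual
import Mathlib.RingTheory.Henselian

/-!
# Local coordinates of a deformation at an auxiliary prime

The normal form of the residual Frobenius depends only on `ρbar`; for every lift with cyclotomic
determinant a normalised basis gives eight coordinates satisfying the local relations.
-/

set_option autoImplicit false
set_option linter.unusedSectionVars false

noncomputable section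

open IsLocalRing Matrix FLTAgent.Deformation

namespace FLTAgent.RT.Gen

variable {𝒪 : Type} [CommRing 𝒪] [IsLocalRing 𝒪]

/-- `D` is a normal form of the residual matrix `X`. -/
def IsBaseAt (D : LocalDatum 𝒪) (X : Mat (ResidueField 𝒪)) : Prop :=
  ∃ P : (Mat (ResidueField 𝒪))ˣ, X * (P : Mat (ResidueField 𝒪)) = P * D.baseMat (ResidueField 𝒪)

/-- The matrix with columns `e` and `X e`. -/
def colPair {A : Type} [CommRing A] (X : Mat A) (e : Fin 2 → A) : Mat A :=
  !![e 0, X 0 0 * e 0 + X 0 1 * e 1; e 1, X 1 0 * e 0 + X 1 1 * e 1]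

theorem mul_colPair {A : Type} [CommRing A] (X : Mat A) (e : Fin 2 → A) :
    X * colPair X e = colPair X e * !![0, -X.det; 1, X.trace] := by
  ext i j
  fin_cases i <;> fin_cases j <;>
    simp [colPair, Matrix.mul_apply, Fin.sum_univ_two, Matrix.det_fin_two, Matrix.trace_fin_two] <;>
    ring

theorem colPair_map {A B : Type} [CommRing A] [CommRing B] (f : A →+* B) (X : Mat A)
    (e : Fin 2 → A) : (colPair X e).map f = colPair (X.map f) (fun i => f (e i)) := by
  ext i j
  fin_cases i <;> fin_cases j <;> simp [colPair]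

/-- A prime unit of `𝒪`. -/
theorem isUnit_natCast_of_ne {p q : ℕ} (hp : p.Prime) (hq : q.Prime) (hqp : q ≠ p)
    (hp𝒪 : (p : 𝒪) ∈ maximalIdeal 𝒪) : IsUnit (q : 𝒪) := by
  by_contra h
  have hq' : (q : 𝒪) ∈ maximalIdeal 𝒪 := (IsLocalRing.mem_maximalIdeal _).mpr h
  obtain ⟨a, b, hab⟩ := (Nat.coprime_primes hp hq).mpr hqp.symm |>.isCoprime
  have h1 : ((1 : ℤ) : 𝒪) ∈ maximalIdeal 𝒪 := by
    rw [← hab]
    push_cast
    exact add_mem (Ideal.mul_mem_left _ _ hp𝒪) (Ideal.mul_mem_left _ _ hq')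
  rw [Int.cast_one] at h1
  exact (maximalIdeal.isMaximal 𝒪).ne_top ((Ideal.eq_top_iff_one _).mpr h1)

/-- **Every residual Frobenius has a normal form.** -/
theorem exists_localDatum [IsAdicComplete (maximalIdeal 𝒪) 𝒪] {p q : ℕ} (hp : p.Prime)
    (hp2 : p ≠ 2) (hp𝒪 : (p : 𝒪) ∈ maximalIdeal 𝒪) (hq : q.Prime) (hqp : q ≠ p)
    (X : Mat (ResidueField 𝒪)) (hX : X.det = (q : ResidueField 𝒪)) :
    ∃ D : LocalDatum 𝒪, D.q = q ∧ IsBaseAt D X := by
  have hqu := isUnit_natCast_of_ne hp hq hqp hp𝒪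
  by_cases h10 : X 1 0 = 0
  swap
  · obtain ⟨T, hT⟩ := IsLocalRing.residue_surjective X.trace
    refine ⟨⟨q, .companion T, hqu, fun φ h => nomatch h⟩, rfl, ?_⟩
    have hd : (colPair X ![1, 0]).det ≠ 0 := by simpa [colPair, Matrix.det_fin_two] using h10
    refine ⟨Matrix.nonsingInvUnit _ (isUnit_iff_ne_zero.mpr hd), ?_⟩
    show X * colPair X ![1, 0] = colPair X ![1, 0] * _
    rw [mul_colPair, hX]
    simp [LocalDatum.baseMat, ← hT]
  by_cases h01 : X 0 1 = 0
  swap
  · obtain ⟨T, hT⟩ := IsLocalRing.residue_surjective X.trace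
    refine ⟨⟨q, .companion T, hqu, fun φ h => nomatch h⟩, rfl, ?_⟩
    have hd : (colPair X ![0, 1]).det ≠ 0 := by simpa [colPair, Matrix.det_fin_two] using h01
    refine ⟨Matrix.nonsingInvUnit _ (isUnit_iff_ne_zero.mpr hd), ?_⟩
    show X * colPair X ![0, 1] = colPair X ![0, 1] * _
    rw [mul_colPair, hX]
    simp [LocalDatum.baseMat, ← hT]
  by_cases hdiag : X 0 0 = X 1 1
  swap
  · obtain ⟨T, hT⟩ := IsLocalRing.residue_surjective X.trace
    refine ⟨⟨q, .companion T, hqu, fun φ h => nomatch h⟩, rfl, ?_⟩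
    have hd : (colPair X ![1, 1]).det ≠ 0 := by
      simpa [colPair, Matrix.det_fin_two, h10, h01, sub_eq_zero] using fun h => hdiag h.symm
    refine ⟨Matrix.nonsingInvUnit _ (isUnit_iff_ne_zero.mpr hd), ?_⟩
    show X * colPair X ![1, 1] = colPair X ![1, 1] * _
    rw [mul_colPair, hX]
    simp [LocalDatum.baseMat, ← hT]
  obtain ⟨a₀, ha₀⟩ := IsLocalRing.residue_surjective (X 0 0)
  have hsq : residue 𝒪 a₀ * residue 𝒪 a₀ = (q : ResidueField 𝒪) := by
    rw [ha₀, ← hX, Matrix.det_fin_two, h10, h01, ← hdiag]; ring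
  have hres0 : residue 𝒪 a₀ ≠ 0 := fun h0 => by
    rw [h0, zero_mul, ← map_natCast (residue 𝒪), eq_comm, residue_eq_zero_iff] at hsq
    exact (IsLocalRing.mem_maximalIdeal _).mp hsq hqu
  have h2 : (2 : ResidueField 𝒪) ≠ 0 := fun h0 => by
    have h2' : ((2 : ℕ) : ResidueField 𝒪) = 0 := by exact_mod_cast h0
    rw [← map_natCast (residue 𝒪), residue_eq_zero_iff] at h2'
    exact (IsLocalRing.mem_maximalIdeal _).mp h2'
      (isUnit_natCast_of_ne hp Nat.prime_two hp2.symm hp𝒪)
  obtain ⟨φ, hφ, hφa⟩ := HenselianRing.is_henselian (I := maximalIdeal 𝒪)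
    (Polynomial.X ^ 2 - Polynomial.C (q : 𝒪)) (Polynomial.monic_X_pow_sub_C _ two_ne_zero) a₀
    (by
      rw [← residue_eq_zero_iff]
      simp [pow_two, hsq])
    (by
      refine isUnit_iff_ne_zero (G₀ := ResidueField 𝒪).mpr ?_
      show residue 𝒪 _ ≠ 0
      simp only [Polynomial.derivative_sub, Polynomial.derivative_X_pow, Polynomial.derivative_C,
        sub_zero, Polynomial.eval_mul, Polynomial.eval_C, Polynomial.eval_pow, Polynomial.eval_X]
      simp [h2, hres0, map_ofNat])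
  have hφres : residue 𝒪 φ = X 0 0 := by
    rw [← ha₀, ← sub_eq_zero, ← map_sub, residue_eq_zero_iff]
    exact hφa
  refine ⟨⟨q, .scalar φ, hqu, fun φ' h => ?_⟩, rfl, 1, ?_⟩
  · obtain rfl : φ = φ' := by simpa using h
    simpa [Polynomial.IsRoot, sub_eq_zero, pow_two] using hφ
  · rw [Units.val_one, mul_one, one_mul]
    ext i j
    fin_cases i <;> fin_cases j <;> simp [LocalDatum.baseMat, hφres, h10, h01, hdiag]

variable {R : Type} [CommRing R] [IsLocalRing R] [Algebra 𝒪 R]

/-- A normalised basis at `q` with its eight coordinates and a generator of inertia. -/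
structure LocalCoord (D : LocalDatum 𝒪) (M : Gal →* Mat R)
    (A : ValuationSubring (AlgebraicClosure ℚ)) (φ : Gal) : Type where
  /-- the change of basis -/
  g : (Mat R)ˣ
  /-- the coordinates -/
  v : Fin 8 → R
  /-- the generator of inertia -/
  τ : Gal
  mem_maximalIdeal : ∀ k, v k ∈ maximalIdeal R
  isNorm : D.IsNorm v
  phi_eq : conjRep g M φ = D.phiMat v
  tau_mem : τ ∈ A.inertiaSubgroupIn ℚ
  tau_eq : conjRep g M τ = sMat v
  gen : ∀ n, ∀ σ ∈ A.inertiaSubgroupIn ℚ, ∃ j : ℕ, modPow M n σ = modPow M n τ ^ j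
  det_phi : (D.phiMat v).det = (D.q : R)
  comm : D.phiMat v * sMat v = sMat v ^ D.q * D.phiMat v
  det_s : (sMat v).det = 1

theorem LocalCoord.trace_sMat {D : LocalDatum 𝒪} {M : Gal →* Mat R}
    {A : ValuationSubring (AlgebraicClosure ℚ)} {φ : Gal} (C : LocalCoord D M A φ) :
    (sMat C.v).trace = (M C.τ).trace := by
  rw [← C.tau_eq, conjRep_apply, Matrix.trace_units_conj]

/-- The relations hold as soon as the trace of the generator of inertia is `t`. -/
theorem LocalCoord.rel {D : LocalDatum 𝒪} {M : Gal →* Mat R}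
    {A : ValuationSubring (AlgebraicClosure ℚ)} {φ : Gal} (C : LocalCoord D M A φ) {t : 𝒪}
    (ht : (M C.τ).trace = algebraMap 𝒪 R t) : D.Rel t C.v :=
  ⟨C.det_phi, C.comm, C.trace_sMat.trans ht, C.det_s⟩

theorem toK_natCast (hR : IsCoeff 𝒪 R) (n : ℕ) : hR.toK (n : R) = (n : ResidueField 𝒪) :=
  map_natCast hR.toK n

/-- **Normalised local coordinates exist.** -/
theorem exists_localCoord [IsNoetherianRing R] [IsAdicComplete (maximalIdeal R) R] {p : ℕ}
    [Fact p.Prime] (hR : IsCoeff 𝒪 R) (hpR : (p : R) ∈ maximalIdeal R) {q : ℕ} (hq : q.Prime)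
    (hqp : q ≠ p) {A : ValuationSubring (AlgebraicClosure ℚ)} (hA : A.LiesOverPrime q) {φ : Gal}
    (hφ : A.IsFrobeniusAt φ q) (D : LocalDatum 𝒪) (hDq : D.q = q)
    {rb : Gal →* Mat (ResidueField 𝒪)} (hD : IsBaseAt D (rb φ))
    (hunr : ∀ σ ∈ A.inertiaSubgroupIn ℚ, rb σ = 1) {M : Gal →* Mat R} (hM : MatCont M)
    (hlift : mapRep (hR.toK : R →+* ResidueField 𝒪) M = rb)
    (hdet : ∀ (n : ℕ) (σ : Gal) (a : ℕ),
      (∀ μ : AlgebraicClosure ℚ, μ ^ p ^ n = 1 → σ μ = μ ^ a) →
      (M σ).det - (a : R) ∈ Ideal.span {((p ^ n : ℕ) : R)}) :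
    Nonempty (LocalCoord D M A φ) := by
  let f : R →+* ResidueField 𝒪 := hR.toK
  have hf : ∀ σ, (M σ).map f = rb σ := fun σ => DFunLike.congr_fun hlift σ
  have hres : ∀ σ ∈ A.inertiaSubgroupIn ℚ, ∀ i j, (M σ - 1) i j ∈ maximalIdeal R := by
    intro σ hσ i j
    rw [← hR.toK_eq_zero, Matrix.sub_apply, map_sub]
    show f (M σ i j) - f ((1 : Mat R) i j) = 0
    have h1 : f (M σ i j) = rb σ i j := congrFun (congrFun (hf σ) i) j
    rw [h1, hunr σ hσ]
    by_cases hij : i = j
    · subst hij; simp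
    · rw [Matrix.one_apply_ne hij, Matrix.one_apply_ne hij, map_zero, sub_zero]
  obtain ⟨hdφ, hdI⟩ := det_frobenius_inertia hpR hq hqp hA hdet hφ
  obtain ⟨τ, hτ, hgen, hcomm⟩ := exists_inertia_generator hpR hq hqp hA hM hres
  -- the basis
  obtain ⟨P, hP⟩ := hD
  obtain ⟨g, hg, hnorm⟩ : ∃ g : (Mat R)ˣ, (conjRep g M φ).map f = D.baseMat (ResidueField 𝒪) ∧
      ∀ T, D.base = LocalBase.companion T →
        conjRep g M φ 0 0 = 0 ∧ conjRep g M φ 1 0 = 1 := by
    rcases hb : D.base with c | T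
    · refine ⟨1, ?_, fun T h => nomatch h⟩
      have hbase : D.baseMat (ResidueField 𝒪) =
          algebraMap 𝒪 (ResidueField 𝒪) c • (1 : Mat (ResidueField 𝒪)) := by
        ext i j
        fin_cases i <;> fin_cases j <;> simp [LocalDatum.baseMat, hb]
      rw [hbase, Matrix.mul_smul, mul_one, ← one_mul (P : Mat (ResidueField 𝒪)),
        ← Matrix.smul_mul, ← mul_assoc, mul_one] at hP
      rw [conjRep_apply, inv_one, Units.val_one, one_mul, mul_one, hf, hbase]
      exact P.isUnit.mul_left_injective hP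
    · choose lift hlift' using hR.toK_surjective
      let e : Fin 2 → R := fun i => lift ((P : Mat (ResidueField 𝒪)) i 0)
      have hbase : D.baseMat (ResidueField 𝒪) =
          !![0, -(D.q : ResidueField 𝒪); 1, algebraMap 𝒪 (ResidueField 𝒪) T] := by
        simp [LocalDatum.baseMat, hb]
      have h1 : ∀ i, (P : Mat (ResidueField 𝒪)) i 1 =
          rb φ i 0 * (P : Mat (ResidueField 𝒪)) 0 0 + rb φ i 1 * (P : Mat (ResidueField 𝒪)) 1 0 := by
        intro i
        have := congrFun (congrFun hP i) 0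
        rw [hbase] at this
        simp [Matrix.mul_apply, Fin.sum_univ_two] at this
        exact this.symm
      have hcp : (colPair (M φ) e).map f = P := by
        rw [colPair_map, hf]
        ext i j
        fin_cases i <;> fin_cases j <;>
          simp [colPair, e, f, hlift', h1]
      have hu : IsUnit (colPair (M φ) e).det := by
        rw [hR.isUnit_iff]
        show f (colPair (M φ) e).det ≠ 0
        rw [RingHom.map_det, RingHom.mapMatrix_apply, hcp]
        exact ((Matrix.isUnit_iff_isUnit_det _).mp P.isUnit).ne_zero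
      let Q : (Mat R)ˣ := Matrix.nonsingInvUnit _ hu
      have hQ : conjRep Q⁻¹ M φ = !![0, -(M φ).det; 1, (M φ).trace] := by
        rw [conjRep_apply, inv_inv, mul_assoc, Units.inv_mul_eq_iff_eq_mul]
        exact mul_colPair (M φ) e
      refine ⟨Q⁻¹, ?_, fun T' hT' => by rw [hQ]; simp⟩
      have hmap : (conjRep Q⁻¹ M φ).map f * (1 : Mat (ResidueField 𝒪)) =
          (↑P⁻¹ : Mat (ResidueField 𝒪)) * rb φ * P := by
        rw [mul_one, conjRep_apply, inv_inv, ← RingHom.mapMatrix_apply, map_mul, map_mul,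
          RingHom.mapMatrix_apply, RingHom.mapMatrix_apply, RingHom.mapMatrix_apply, hf]
        have e1 : (Q : Mat R).map f = P := hcp
        have e2 : ((↑Q⁻¹ : Mat R).map f) = (↑P⁻¹ : Mat (ResidueField 𝒪)) := by
          refine left_inv_eq_right_inv (a := (P : Mat (ResidueField 𝒪))) ?_ P.mul_inv
          rw [← e1, ← Matrix.map_mul, Units.inv_mul,
            Matrix.map_one f (map_zero f) (map_one f)]
        rw [e1, e2]
      rw [mul_one, mul_assoc, hP, ← mul_assoc, Units.inv_mul, one_mul] at hmap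
      exact hmap
  set X := conjRep g M φ with hX
  set Y := conjRep g M τ with hY
  let v : Fin 8 → R := ![(X - D.baseMat R) 0 0, (X - D.baseMat R) 0 1, (X - D.baseMat R) 1 0,
    (X - D.baseMat R) 1 1, (Y - 1) 0 0, (Y - 1) 0 1, (Y - 1) 1 0, (Y - 1) 1 1]
  have hphi : D.phiMat v = X := by
    rw [LocalDatum.phiMat,
      show !![v 0, v 1; v 2, v 3] = X - D.baseMat R by
        ext i j; fin_cases i <;> fin_cases j <;> rfl]
    abel
  have hs : sMat v = Y := by
    rw [sMat, show !![v 4, v 5; v 6, v 7] = Y - 1 by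
      ext i j; fin_cases i <;> fin_cases j <;> rfl]
    abel
  have hbR : (D.baseMat R).map f = D.baseMat (ResidueField 𝒪) := by
    rcases hb : D.base with c | T <;>
      · ext i j
        fin_cases i <;> fin_cases j <;> simp [LocalDatum.baseMat, hb, f, toK_natCast hR]
  have hv1 : ∀ i j, (X - D.baseMat R) i j ∈ maximalIdeal R := fun i j => by
    rw [← hR.toK_eq_zero, Matrix.sub_apply, map_sub]
    show f (X i j) - f (D.baseMat R i j) = 0
    have h1 : f (X i j) = D.baseMat (ResidueField 𝒪) i j := congrFun (congrFun hg i) j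
    have h2 : f (D.baseMat R i j) = D.baseMat (ResidueField 𝒪) i j := congrFun (congrFun hbR i) j
    rw [h1, h2, sub_self]
  have hv2 : ∀ i j, (Y - 1) i j ∈ maximalIdeal R := fun i j => by
    have : Y - 1 = (g : Mat R) * (M τ - 1) * (↑g⁻¹ : Mat R) := by
      rw [hY, conjRep_apply, mul_sub, sub_mul, mul_one, Units.mul_inv]
    rw [this, Matrix.mul_apply]
    refine Ideal.sum_mem _ fun a _ => Ideal.mul_mem_right _ _ ?_
    rw [Matrix.mul_apply]
    exact Ideal.sum_mem _ fun b _ => Ideal.mul_mem_left _ _ (hres τ hτ b a)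
  refine ⟨⟨g, v, τ, fun k => ?_, fun T hT => ?_, hphi.symm, hτ, hs.symm, hgen, ?_, ?_, ?_⟩⟩
  · fin_cases k
    exacts [hv1 0 0, hv1 0 1, hv1 1 0, hv1 1 1, hv2 0 0, hv2 0 1, hv2 1 0, hv2 1 1]
  · obtain ⟨h00, h10⟩ := hnorm T hT
    constructor
    · show (X - D.baseMat R) 0 0 = 0
      simp [LocalDatum.baseMat, hT, h00]
    · show (X - D.baseMat R) 1 0 = 0
      simp [LocalDatum.baseMat, hT, h10]
  · rw [hphi, hX, conjRep_apply, Matrix.det_units_conj, hdφ, hDq]
  · rw [hphi, hs, hDq, hX, hY, ← map_mul, ← map_pow, ← map_mul]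
    show (g : Mat R) * M (φ * τ) * _ = (g : Mat R) * M (τ ^ q * φ) * _
    rw [map_mul, map_mul, map_pow, hcomm φ hφ]
  · rw [hs, hY, conjRep_apply, Matrix.det_units_conj, hdI τ hτ]

end FLTAgent.RT.Gen
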