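import Fermat.Agent.RT.Gen.LocalCoord
import Fermat.Agent.TW.Tangent
import Fermat.Agent.TW.Local.Generation

/-!
# Deformation rings are generated by local coordinates and few further variables

A tangent vector killed by all local coordinates gives a class trivial at the auxiliary primes; if
that Selmer space has dimension at most `g + 3` then `g` more variables suffice.
-/

set_option autoImplicit false
set_option linter.unusedSectionVars false

noncomputable section

open IsLocalRing Matrix FLTAgent.Deformation FLTAgent.TW FLTAgent.RTIrr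

namespace FLTAgent.RT.Gen

attribute [local instance] dualAlg

section Extend

variable {𝒪 : Type} [CommRing 𝒪] [IsLocalRing 𝒪]

/-- Given elements and few maps to `k[ε]` killing them, few more variables suffice. -/
theorem exists_surjective_extend [IsAdicComplete (maximalIdeal 𝒪) 𝒪] [Finite (ResidueField 𝒪)]
    {A : Type} [CommRing A] [IsLocalRing A] [IsNoetherianRing A]
    [IsAdicComplete (maximalIdeal A) A] [Algebra 𝒪 A] (hA : IsCoeff 𝒪 A)
    {κ : Type} [Finite κ] (v : κ → A) (hv : ∀ i, v i ∈ maximalIdeal A) (g : ℕ)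
    [Finite {f : A →ₐ[𝒪] DualNumber (ResidueField 𝒪) // ∀ i, f (v i) = 0}]
    (hcard : Nat.card {f : A →ₐ[𝒪] DualNumber (ResidueField 𝒪) // ∀ i, f (v i) = 0} ≤
      Nat.card (ResidueField 𝒪) ^ g) :
    ∃ γ : MvPowerSeries (κ ⊕ Fin g) 𝒪 →ₐ[𝒪] A,
      Function.Surjective γ ∧ ∀ i, γ (MvPowerSeries.X (Sum.inl i)) = v i := by
  classical
  let I : Ideal A := Ideal.span (Set.range v)
  have hI : I ≤ maximalIdeal A := Ideal.span_le.mpr (by
    rintro _ ⟨i, rfl⟩
    exact hv i)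
  have : IsLocalRing (A ⧸ I) := isLocalRing_quotient fun h =>
    (maximalIdeal.isMaximal A).ne_top (top_le_iff.mp (h ▸ hI))
  have hQ : IsCoeff 𝒪 (A ⧸ I) := hA.quotient I
  let π : A →ₐ[𝒪] A ⧸ I := Ideal.Quotient.mkₐ 𝒪 I
  let emb : (A ⧸ I →ₐ[𝒪] DualNumber (ResidueField 𝒪)) →
      {f : A →ₐ[𝒪] DualNumber (ResidueField 𝒪) // ∀ i, f (v i) = 0} := fun h =>
    ⟨h.comp π, fun i => by
      show h (Ideal.Quotient.mk I (v i)) = 0
      rw [Ideal.Quotient.eq_zero_iff_mem.mpr (show v i ∈ I from Ideal.subset_span ⟨i, rfl⟩), map_zero]⟩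
  have hemb : Function.Injective emb := fun h h' e => AlgHom.ext fun x => by
    obtain ⟨a, rfl⟩ := Ideal.Quotient.mk_surjective x
    exact DFunLike.congr_fun (congrArg Subtype.val e) a
  have : Finite (A ⧸ I →ₐ[𝒪] DualNumber (ResidueField 𝒪)) := Finite.of_injective emb hemb
  obtain ⟨x', hx', hgen⟩ := exists_tangent_generators hQ g
    ((Nat.card_le_card_of_injective emb hemb).trans hcard)
  choose x hxeq using fun i => Ideal.Quotient.mk_surjective (x' i)
  have hx : ∀ i, x i ∈ maximalIdeal A := fun i => by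
    by_contra h
    have h1 : IsUnit (x i) := notMem_maximalIdeal.mp h
    have h2 := h1.map (Ideal.Quotient.mk I)
    rw [hxeq] at h2
    exact (IsLocalRing.mem_maximalIdeal _).mp (hx' i) h2
  let z : κ ⊕ Fin g → A := Sum.elim v x
  have hz : ∀ s, z s ∈ maximalIdeal A := fun s => by
    rcases s with i | i
    exacts [hv i, hx i]
  refine ⟨psEval z hz, powerSeries_surjective hA.residue_surjective _ ?_,
    fun i => psEval_X z hz (Sum.inl i)⟩
  refine le_antisymm (Ideal.map_le_iff_le_comap.mpr fun f hf => ?_) ?_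
  · exact isCoeff_powerSeries.map_mem_maximalIdeal hA _ hf
  · have hzM : ∀ s, z s ∈ (maximalIdeal (MvPowerSeries (κ ⊕ Fin g) 𝒪)).map (psEval z hz) :=
      fun s => by
        rw [← psEval_X (𝒪 := 𝒪) z hz s]
        exact Ideal.mem_map_of_mem _ (span_X_le_maximalIdeal (Ideal.subset_span ⟨s, rfl⟩))
    refine Submodule.le_of_le_smul_of_le_jacobson_bot (I := maximalIdeal A)
      (IsNoetherian.noetherian _) (jacobson_eq_maximalIdeal ⊥ bot_ne_top).ge ?_
    rw [smul_eq_mul, ← pow_two]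
    intro a ha
    have h1 : Ideal.Quotient.mk I a ∈
        (Ideal.span (Set.range x') ⊔ (maximalIdeal 𝒪).map (algebraMap 𝒪 (A ⧸ I))) ⊔
          maximalIdeal (A ⧸ I) ^ 2 :=
      hgen (by rw [maximalIdeal_quotient_eq]; exact Ideal.mem_map_of_mem _ ha)
    have e : (Ideal.span (Set.range x') ⊔ (maximalIdeal 𝒪).map (algebraMap 𝒪 (A ⧸ I))) ⊔
        maximalIdeal (A ⧸ I) ^ 2 =
        ((Ideal.span (Set.range x) ⊔ (maximalIdeal 𝒪).map (algebraMap 𝒪 A)) ⊔
          maximalIdeal A ^ 2).map (Ideal.Quotient.mk I) := by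
      rw [Ideal.map_sup, Ideal.map_sup, Ideal.map_span, ← Set.range_comp, Ideal.map_map,
        Ideal.map_pow, maximalIdeal_quotient_eq,
        show (Ideal.Quotient.mk I) ∘ x = x' from funext hxeq]
      rfl
    rw [e, Ideal.mem_quotient_iff_mem_sup] at h1
    refine SetLike.le_def.mp (sup_le (sup_le_sup (sup_le ?_ ?_) le_rfl) ?_) h1
    · rw [Ideal.span_le]
      rintro _ ⟨i, rfl⟩
      exact hzM (Sum.inr i)
    · rw [Ideal.map_le_iff_le_comap]
      intro r hr
      rw [Ideal.mem_comap, ← (psEval z hz).commutes r]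
      refine Ideal.mem_map_of_mem _ (mem_maximalIdeal_powerSeries.mpr ?_)
      rwa [constantCoeff_algebraMap]
    · rw [Ideal.span_le]
      rintro _ ⟨i, rfl⟩
      exact Ideal.mem_sup_left (hzM (Sum.inl i))

end Extend

section Trivial

variable {k : Type} [Field k]

/-- A lift which is constant on `H` in some basis has a coboundary as cocycle there. -/
theorem liftCocycle_mem_adB1_of_const (h2 : (2 : k) ≠ 0) {rb : Gal →* Mat k}
    {N N₁ : Gal →* Mat (DualNumber k)} (H : Subgroup Gal)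
    (hfst : ∀ σ, (N σ).map TrivSqZeroExt.fst = rb σ) (U : (Mat (DualNumber k))ˣ)
    (hN : N = conjRep U N₁) (hconst : ∀ d ∈ H, (N₁ d).map TrivSqZeroExt.snd = 0) :
    (fun d : H => liftCocycle rb N d) ∈ adB1 rb H := by
  set U0 := (U : Mat (DualNumber k)).map TrivSqZeroExt.fst
  set V0 := (↑U⁻¹ : Mat (DualNumber k)).map TrivSqZeroExt.fst
  have hUV : U0 * V0 = 1 := by
    rw [← fst_map_mul, Units.mul_inv, Matrix.map_one _ TrivSqZeroExt.fst_zero TrivSqZeroExt.fst_one]
  set Y := (U : Mat (DualNumber k)).map TrivSqZeroExt.snd * V0 with hY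
  have hmain : ∀ d ∈ H, (N d).map TrivSqZeroExt.snd = Y * rb d - rb d * Y := by
    intro d hd
    have e0 : N d * U = U * N₁ d := by
      rw [hN, conjRep_apply, mul_assoc, Units.inv_mul, mul_one]
    have e1 := congrArg (fun X : Mat (DualNumber k) => X.map TrivSqZeroExt.fst) e0
    simp only [fst_map_mul, hfst] at e1
    have e2 := congrArg (fun X : Mat (DualNumber k) => X.map TrivSqZeroExt.snd) e0
    simp only [snd_map_mul, hfst, hconst d hd, mul_zero, zero_add] at e2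
    have hVU : V0 * U0 = 1 := mul_eq_one_comm.mp hUV
    have e3 : (N₁ d).map TrivSqZeroExt.fst * V0 = V0 * rb d := by
      calc (N₁ d).map TrivSqZeroExt.fst * V0
          = V0 * U0 * ((N₁ d).map TrivSqZeroExt.fst * V0) := by rw [hVU, one_mul]
        _ = V0 * (rb d * U0) * V0 := by rw [e1]; simp only [mul_assoc, U0]
        _ = V0 * rb d := by rw [mul_assoc, mul_assoc, hUV, mul_one]
    rw [eq_sub_iff_add_eq, hY]
    calc (N d).map TrivSqZeroExt.snd + rb d * ((U : Mat (DualNumber k)).map TrivSqZeroExt.snd * V0)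
        = ((N d).map TrivSqZeroExt.snd * U0 +
            rb d * (U : Mat (DualNumber k)).map TrivSqZeroExt.snd) * V0 := by
          rw [add_mul, mul_assoc, hUV, mul_one, mul_assoc]
      _ = (U : Mat (DualNumber k)).map TrivSqZeroExt.snd * ((N₁ d).map TrivSqZeroExt.fst * V0) := by
          rw [add_comm, e2, mul_assoc]
      _ = (U : Mat (DualNumber k)).map TrivSqZeroExt.snd * V0 * rb d := by rw [e3, mul_assoc]
  refine ⟨-Y - ((-Y).trace / 2) • 1, ?_, funext fun d => ?_⟩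
  · simp only [sl2, SetLike.mem_coe, LinearMap.mem_ker, Matrix.traceLinearMap_apply]
    rw [Matrix.trace_sub, Matrix.trace_smul, Matrix.trace_one, Fintype.card_fin, smul_eq_mul,
      Nat.cast_ofNat, div_mul_cancel₀ _ h2, sub_self]
  · show adAct rb d _ - _ = (N d).map TrivSqZeroExt.snd * rb (d : Gal)⁻¹
    rw [hmain d d.2]
    simp only [adAct, sub_mul, mul_sub, Matrix.mul_smul, Matrix.smul_mul, mul_one, mul_neg,
      neg_mul, rb_mul_inv, mul_assoc]
    abel

end Trivial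

variable {𝒪 : Type} [CommRing 𝒪] [IsDomain 𝒪] [IsDiscreteValuationRing 𝒪]
  [IsAdicComplete (maximalIdeal 𝒪) 𝒪]
  [Finite (ResidueField 𝒪)] {ρbar : ResidualGaloisRep (ResidueField 𝒪)}

/-- A tangent vector killed by the coordinates is constant on the decomposition group. -/
theorem snd_conj_eq_zero {R : Type} [CommRing R] [IsLocalRing R] [Algebra 𝒪 R] (hR : IsCoeff 𝒪 R)
    {D : LocalDatum 𝒪} {q : ℕ} (hq : q.Prime) {A : ValuationSubring (AlgebraicClosure ℚ)}
    (hA : A.LiesOverPrime q) {φ : Gal} (hφ : A.IsFrobeniusAt φ q) {M : Gal →* Mat R}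
    (hM : MatCont M) (C : LocalCoord D M A φ) (f : R →ₐ[𝒪] DualNumber (ResidueField 𝒪))
    (hf : ∀ k, f (C.v k) = 0) :
    ∀ d ∈ A.decompositionSubgroup ℚ,
      (mapRep (f : R →+* DualNumber (ResidueField 𝒪)) (conjRep C.g M) d).map
        TrivSqZeroExt.snd = 0 := by
  set F : R →+* DualNumber (ResidueField 𝒪) := (f : R →+* DualNumber (ResidueField 𝒪)) with hF
  set N₁ := mapRep F (conjRep C.g M) with hN1
  have hE := isArtinianTestAlgebra_dual (𝒪 := 𝒪)
  have hc0 : ∀ k, (fun i => f (C.v i)) k = 0 := hf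
  have hφ1 : N₁ φ = (D.baseMat (ResidueField 𝒪)).map TrivSqZeroExt.inl := by
    rw [hN1, mapRep_apply, C.phi_eq]
    show (D.phiMat C.v).map f = _
    rw [D.phiMat_map f]
    rcases hb : D.base with c | T <;>
      · ext i j : 1
        fin_cases i <;> fin_cases j <;>
          simp [LocalDatum.phiMat, LocalDatum.baseMat, hb, hf, dualAlg_algebraMap,
            TrivSqZeroExt.inl_natCast]
  have hτ1 : N₁ C.τ = 1 := by
    rw [hN1, mapRep_apply, C.tau_eq]
    show (sMat C.v).map f = _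
    rw [sMat_map f]
    ext i j : 1
    fin_cases i <;> fin_cases j <;> simp [sMat, hf]
  have hm2 : ∀ x ∈ maximalIdeal R ^ 2, F x = 0 := by
    intro x hx
    have h1 := hR.map_mem_maximalIdeal_pow hE.isCoeff f hx
    have h0 : maximalIdeal (DualNumber (ResidueField 𝒪)) ^ 2 = ⊥ := by
      rw [eq_bot_iff, pow_two, Ideal.mul_le]
      intro a ha b hb
      rw [IsLocalRing.mem_maximalIdeal, mem_nonunits_iff, TrivSqZeroExt.isUnit_iff_isUnit_fst,
        isUnit_iff_ne_zero, not_not] at ha hb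
      rw [Ideal.mem_bot]
      exact TrivSqZeroExt.ext (by simp [ha]) (by simp [TrivSqZeroExt.snd_mul, ha, hb])
    rw [h0, Ideal.mem_bot] at h1
    exact h1
  have hI : ∀ σ ∈ A.inertiaSubgroupIn ℚ, N₁ σ = 1 := by
    intro σ hσ
    obtain ⟨j, hj⟩ := C.gen 2 σ hσ
    let Fbar : R ⧸ maximalIdeal R ^ 2 →+* DualNumber (ResidueField 𝒪) :=
      Ideal.Quotient.lift _ F hm2
    have e : ∀ x, mapRep F M x = Fbar.mapMatrix (modPow M 2 x) := fun x => by
      ext a b : 1
      simp [Fbar, mapRep_apply]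
    have e' : mapRep F M σ = mapRep F M C.τ ^ j := by rw [e, e, hj, map_pow]
    rw [hN1, mapRep_conjRep] at hτ1 ⊢
    rw [conjRep_apply, e', ← map_pow,
      ← conjRep_apply (Units.map (RingHom.mapMatrix (m := Fin 2) F).toMonoidHom C.g), map_pow,
      hτ1, one_pow]
  intro d hd
  obtain ⟨n, hn⟩ := hE.exists_pow_eq_bot
  obtain ⟨L₀, hL₀, hL₀1⟩ := ((hM.conj C.g).map F (hR.isLocalHom_algHom hE.isCoeff f)).exists_eq_one hn
  obtain ⟨L, hLf, hLn, hle⟩ := Local.exists_normal_ge L₀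
  obtain ⟨m, ι, hι, hdι⟩ := Local.exists_frobenius_pow_mul hq hA hφ L hd
  have hd1 : N₁ d = N₁ (φ ^ m * ι) := by
    have h1 : N₁ ((φ ^ m * ι)⁻¹ * d) = 1 := hL₀1 _ fun x hx => by
      rw [AlgEquiv.mul_apply, hdι x (hle hx)]
      exact (φ ^ m * ι).symm_apply_apply x
    rw [show d = φ ^ m * ι * ((φ ^ m * ι)⁻¹ * d) by rw [mul_inv_cancel_left], map_mul, h1, mul_one]
  rw [hd1, map_mul, map_pow, hI ι hι, mul_one, hφ1]
  have hpow : ((D.baseMat (ResidueField 𝒪)).map TrivSqZeroExt.inl :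
      Mat (DualNumber (ResidueField 𝒪))) ^ m =
      ((D.baseMat (ResidueField 𝒪)) ^ m).map TrivSqZeroExt.inl :=
    (map_pow (RingHom.mapMatrix (m := Fin 2)
      (TrivSqZeroExt.inlHom (ResidueField 𝒪) (ResidueField 𝒪))) (D.baseMat (ResidueField 𝒪)) m).symm
  rw [hpow]
  ext i j
  simp

theorem det_matRep_of_isEquiv {R : Type} [CommRing R] [IsLocalRing R] {ρ : GaloisRepAdic R}
    {M : Gal →* Mat R} {hM : MatCont M} (he : ρ.IsEquiv (matRep M hM)) {p : ℕ}
    (hdet : ρ.DetIsCyclotomic p) (n : ℕ) (σ : Gal) (a : ℕ)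
    (ha : ∀ μ : AlgebraicClosure ℚ, μ ^ p ^ n = 1 → σ μ = μ ^ a) :
    (M σ).det - (a : R) ∈ Ideal.span {((p ^ n : ℕ) : R)} := by
  obtain ⟨e⟩ := he
  have h : (matRep M hM).ρ σ = (e.toLinearEquiv : ρ.V →ₗ[R] (matRep M hM).V) ∘ₗ ρ.ρ σ ∘ₗ
      (e.toLinearEquiv.symm : (matRep M hM).V →ₗ[R] ρ.V) := LinearMap.ext fun x => by
    simp only [LinearMap.comp_apply, LinearEquiv.coe_coe]
    rw [e.map_apply, LinearEquiv.apply_symm_apply]
  have h2 : LinearMap.det ((matRep M hM).ρ σ) = (M σ).det := by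
    rw [← LinearMap.det_toMatrix (Pi.basisFun _ (Fin 2))]
    exact congrArg Matrix.det (DFunLike.congr_fun (repMatrix_matRep M hM) σ)
  rw [← h2, h, LinearMap.det_conj]
  exact hdet.2 n σ a ha

variable {p : ℕ} [Fact p.Prime]

/-- **Deformation rings are generated by the local coordinates, given extra elements and `g` further
variables.** The conditions at the other places may use that the tangent vector kills the extra
elements. -/
theorem exists_surjective_locVar_extra (hp2 : p ≠ 2) [CharP (ResidueField 𝒪) p]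
    {Smin Q : Finset ℕ} (h : ResidualHyp p (barMatrix ρbar) Smin)
    (hirr : ¬ HasStableLine
      (mapRep (algebraMap (ResidueField 𝒪) (AlgebraicClosure (ResidueField 𝒪))) (barMatrix ρbar))
      Set.univ)
    {A : ℕ → ValuationSubring (AlgebraicClosure ℚ)}
    {L : ∀ l : ℕ, Submodule (ResidueField 𝒪)
      ((A l).decompositionSubgroup ℚ → Mat (ResidueField 𝒪))}
    (hLB : ∀ l ∈ Smin, adB1 (barMatrix ρbar) ((A l).decompositionSubgroup ℚ) ≤ L l)
    (g : ℕ) (hfin : Module.Finite (ResidueField 𝒪) (selmer (barMatrix ρbar) Smin Q A L))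
    (hdim : Module.finrank (ResidueField 𝒪) (selmer (barMatrix ρbar) Smin Q A L) ≤ g + 3)
    {𝒟 : ∀ ⦃A : Type⦄ [CommRing A] [IsLocalRing A] [Algebra 𝒪 A], GaloisRepAdic A → Prop}
    (h𝒟 : GaloisRep.IsDeformationCondition 𝒪 𝒟)
    (hdet : ∀ (N : Gal →* Mat (DualNumber (ResidueField 𝒪))) (hN : MatCont N),
      𝒟 (matRep N hN) → (matRep N hN).DetIsCyclotomic p)
    (hunr : ∀ (N : Gal →* Mat (DualNumber (ResidueField 𝒪))) (hN : MatCont N),
      𝒟 (matRep N hN) → ∀ l : ℕ, l.Prime → l ∉ Smin → l ∉ Q → (matRep N hN).IsUnramifiedAt l)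
    (D : GaloisRep.DeformationRingData 𝒪 ρbar 𝒟) {M : Gal →* Mat D.R} {hM : MatCont M}
    (hequiv : D.ρ.IsEquiv (matRep M hM)) {ι : Type} [Finite ι] (qs : ι → ℕ)
    (hqs : ∀ i, (qs i).Prime ∧ (A (qs i)).LiesOverPrime (qs i)) (φ : ι → Gal)
    (hφ : ∀ i, (A (qs i)).IsFrobeniusAt (φ i) (qs i)) (Ds : ι → LocalDatum 𝒪)
    (C : ∀ i, LocalCoord (Ds i) M (A (qs i)) (φ i))
    {κ : Type} [Finite κ] (u : κ → D.R) (hu : ∀ j, u j ∈ maximalIdeal D.R)
    (hloc : ∀ l ∈ Smin, (∃ i, qs i = l) ∨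
      ∀ (f : D.R →ₐ[𝒪] DualNumber (ResidueField 𝒪))
        (hf : IsLocalHom (f : D.R →+* DualNumber (ResidueField 𝒪)))
        (N : Gal →* Mat (DualNumber (ResidueField 𝒪))) (hN : MatCont N),
        (∀ σ, (N σ).map TrivSqZeroExt.fst = barMatrix ρbar σ) →
        (∀ σ, Matrix.trace (liftCocycle (barMatrix ρbar) N σ) = 0) →
        (∀ j, f (u j) = 0) →
        (D.ρ.baseChangeAlong (f : D.R →+* DualNumber (ResidueField 𝒪)) hf).IsEquiv (matRep N hN) →
        𝒟 (matRep N hN) →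
        (fun g : (A l).decompositionSubgroup ℚ => liftCocycle (barMatrix ρbar) N g) ∈ L l) :
    ∃ γ : MvPowerSeries (LocVar ι (κ ⊕ Fin g)) 𝒪 →ₐ[𝒪] D.R, Function.Surjective γ ∧
      (∀ i k, γ (locCoord i k) = (C i).v k) ∧
      ∀ j, γ (MvPowerSeries.X (Sum.inr (Sum.inl j))) = u j := by
  have h2 : (2 : ResidueField 𝒪) ≠ 0 := by
    intro h0
    have : ((2 : ℕ) : ResidueField 𝒪) = 0 := by exact_mod_cast h0
    rw [CharP.cast_eq_zero_iff (ResidueField 𝒪) p] at this
    exact hp2 ((Nat.prime_dvd_prime_iff_eq Fact.out Nat.prime_two).mp this)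
  have hR := isCoeff_deformationRing D
  let v : (ι × Fin 8) ⊕ κ → D.R := Sum.elim (fun x => (C x.1).v x.2) u
  obtain ⟨hF, hle⟩ := natCard_algHom_le_of_selmer hp2 h hirr hLB g hfin hdim h𝒟 hdet hunr D
    (fun f => ∀ x, f (v x) = 0) fun f hPf hf N hN e1 e2 he hD l hl => by
      rcases hloc l hl with ⟨i, rfl⟩ | hgood
      · refine hLB _ hl ?_
        obtain ⟨e⟩ := baseChangeAlong_isEquiv_matRep _ hf hequiv
        obtain ⟨e'⟩ := he
        obtain ⟨u, hu⟩ := (isEquiv_matRep_iff (hM.map _ hf) hN).mp ⟨e.symm.trans e'⟩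
        let G := Units.map (RingHom.mapMatrix (m := Fin 2)
          (f : D.R →+* DualNumber (ResidueField 𝒪))).toMonoidHom (C i).g
        refine liftCocycle_mem_adB1_of_const h2 _ e1 (u * G⁻¹) ?_
          (snd_conj_eq_zero hR (hqs i).1 (hqs i).2 (hφ i) hM (C i) f fun k => hPf (Sum.inl (i, k)))
        rw [mapRep_conjRep, conjRep_conjRep, mul_assoc, inv_mul_cancel, mul_one, hu]
      · exact hgood f hf N hN e1 e2 (fun j => hPf (Sum.inr j)) he hD
  obtain ⟨γ, hγ, hγv⟩ := exists_surjective_extend hR v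
    (fun x => by
      rcases x with x | j
      exacts [(C x.1).mem_maximalIdeal x.2, hu j]) g hle
  refine ⟨γ.comp (MvPowerSeries.renameEquiv (R := 𝒪) (Equiv.sumAssoc (ι × Fin 8) κ (Fin g)).symm).toAlgHom,
    hγ.comp (AlgEquiv.surjective _), fun i k => ?_, fun j => ?_⟩
  · show γ (MvPowerSeries.rename (R := 𝒪) _ (MvPowerSeries.X (Sum.inl (i, k)))) = _
    rw [MvPowerSeries.rename_X]
    exact hγv (Sum.inl (i, k))
  · show γ (MvPowerSeries.rename (R := 𝒪) _ (MvPowerSeries.X (Sum.inr (Sum.inl j)))) = _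
    rw [MvPowerSeries.rename_X]
    exact hγv (Sum.inr j)

/-- **Deformation rings are generated by the local coordinates and `g` further variables.** -/
theorem exists_surjective_locVar (hp2 : p ≠ 2) [CharP (ResidueField 𝒪) p]
    {Smin Q : Finset ℕ} (h : ResidualHyp p (barMatrix ρbar) Smin)
    (hirr : ¬ HasStableLine
      (mapRep (algebraMap (ResidueField 𝒪) (AlgebraicClosure (ResidueField 𝒪))) (barMatrix ρbar))
      Set.univ)
    {A : ℕ → ValuationSubring (AlgebraicClosure ℚ)}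
    {L : ∀ l : ℕ, Submodule (ResidueField 𝒪)
      ((A l).decompositionSubgroup ℚ → Mat (ResidueField 𝒪))}
    (hLB : ∀ l ∈ Smin, adB1 (barMatrix ρbar) ((A l).decompositionSubgroup ℚ) ≤ L l)
    (g : ℕ) (hfin : Module.Finite (ResidueField 𝒪) (selmer (barMatrix ρbar) Smin Q A L))
    (hdim : Module.finrank (ResidueField 𝒪) (selmer (barMatrix ρbar) Smin Q A L) ≤ g + 3)
    {𝒟 : ∀ ⦃A : Type⦄ [CommRing A] [IsLocalRing A] [Algebra 𝒪 A], GaloisRepAdic A → Prop}
    (h𝒟 : GaloisRep.IsDeformationCondition 𝒪 𝒟)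
    (hdet : ∀ (N : Gal →* Mat (DualNumber (ResidueField 𝒪))) (hN : MatCont N),
      𝒟 (matRep N hN) → (matRep N hN).DetIsCyclotomic p)
    (hunr : ∀ (N : Gal →* Mat (DualNumber (ResidueField 𝒪))) (hN : MatCont N),
      𝒟 (matRep N hN) → ∀ l : ℕ, l.Prime → l ∉ Smin → l ∉ Q → (matRep N hN).IsUnramifiedAt l)
    (D : GaloisRep.DeformationRingData 𝒪 ρbar 𝒟) {M : Gal →* Mat D.R} {hM : MatCont M}
    (hequiv : D.ρ.IsEquiv (matRep M hM)) {ι : Type} [Finite ι] (qs : ι → ℕ)
    (hqs : ∀ i, (qs i).Prime ∧ (A (qs i)).LiesOverPrime (qs i)) (φ : ι → Gal)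
    (hφ : ∀ i, (A (qs i)).IsFrobeniusAt (φ i) (qs i)) (Ds : ι → LocalDatum 𝒪)
    (C : ∀ i, LocalCoord (Ds i) M (A (qs i)) (φ i))
    (hloc : ∀ l ∈ Smin, (∃ i, qs i = l) ∨
      ∀ (N : Gal →* Mat (DualNumber (ResidueField 𝒪))) (hN : MatCont N),
        (∀ σ, (N σ).map TrivSqZeroExt.fst = barMatrix ρbar σ) →
        (∀ σ, Matrix.trace (liftCocycle (barMatrix ρbar) N σ) = 0) →
        𝒟 (matRep N hN) →
        (fun g : (A l).decompositionSubgroup ℚ => liftCocycle (barMatrix ρbar) N g) ∈ L l) :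
    ∃ γ : MvPowerSeries (LocVar ι (Fin g)) 𝒪 →ₐ[𝒪] D.R, Function.Surjective γ ∧
      ∀ i k, γ (locCoord i k) = (C i).v k := by
  obtain ⟨γ, hγ, hγv, -⟩ := exists_surjective_locVar_extra hp2 h hirr hLB g hfin hdim h𝒟 hdet hunr D
    hequiv qs hqs φ hφ Ds C (κ := Fin 0) Fin.elim0 (fun j => j.elim0) fun l hl =>
      (hloc l hl).imp_right fun hg f hf N hN e1 e2 _ _ hD => hg N hN e1 e2 hD
  refine ⟨γ.comp (MvPowerSeries.renameEquiv (R := 𝒪)
      (Equiv.sumCongr (Equiv.refl (ι × Fin 8)) (Equiv.emptySum (Fin 0) (Fin g)).symm)).toAlgHom,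
    hγ.comp (AlgEquiv.surjective _), fun i k => ?_⟩
  show γ (MvPowerSeries.rename (R := 𝒪) _ (MvPowerSeries.X (Sum.inl (i, k)))) = _
  rw [MvPowerSeries.rename_X]
  exact hγv i k

end FLTAgent.RT.Gen
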